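import Fermat.Agent.S59.LoSqC.H296.RedTower

/-!
# S59 moonshot, cell (C) LO-SQ, W-COUNT: J-form of R-SURJ1 and its Kummer-generator output
  (helper296)

`RSurjJ m q M' A I` : every `m`-torsion pair `(y∞, y₀) ∈ Pic⁰(F_k)²` is the pair of reduction
classes (`IsRedClassQ`) of a class `x ∈ I` (`I` = the inertia-fixed classes, or `⊤`).  This is the
conclusion R-SURJ1 of the abstract counts applied to `exists_redHom_h296`
(`rSurjJ_of_hom_surj`).

Output for the E-form adapters (`kummerGen_of_rSurjJ`): for ANY two series `ρ∞, ρ₀ ∈ F_k` with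
`m`-divisible divisors there is a class `x ∈ I` with a Kummer generator `f` whose reductions are
`c∞ · ρ∞ · s∞ ^ m` and `c₀ · ρ₀ · s₀ ^ m` (`c ∈ kˣ`, `s ∈ F_kˣ`).  In particular
(`kummerGen_of_rSurjJ_one`) with `ρ∞ = 1`: reductions `(c∞ s∞ ^ m, c₀ ρ₀ s₀ ^ m)`.
-/

set_option autoImplicit false
set_option linter.unusedSectionVars false
set_option linter.unusedVariables false
set_option linter.style.haveILetI false
set_option synthInstance.maxHeartbeats 400000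
set_option maxHeartbeats 1000000

noncomputable section

namespace Fermat.Agent.S59.LoSqC.H296

open AlgebraicCurve ModularCurve HahnSeries
open Fermat.Agent.S24 Fermat.Agent.A2.H708 Fermat.Agent.A2.H528
open Fermat.Agent.Ribet.Spec Fermat.Agent.Ribet.H944.Wall Fermat.Agent.Ribet.H884
open Fermat.Agent.Ribet.H158.WallQ
open Fermat.Agent.Ribet.H944
open Fermat.Agent.Ribet.H708.Q3Pow

section Surj

variable {m q M' : ℕ} [NeZero M'] [NeZero q] [NeZero (q * M')] {A : ValuationSubring Kbar}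

/-- **R-SURJ1, J-form**: the reduction classes of the classes of `I` exhaust the `m`-torsion of
`Pic⁰(F_k)²`. -/
def RSurjJ (m q M' : ℕ) [NeZero M'] [NeZero (q * M')] (A : ValuationSubring Kbar)
    (I : AddSubgroup (JZero (q * M'))) : Prop :=
  ∀ y : JZeroC (kA A) M' × JZeroC (kA A) M', m • y = 0 →
    ∃ x ∈ I, IsRedClassQ m q M' A x y

theorem RSurjJ.mono {I I' : AddSubgroup (JZero (q * M'))} (h : RSurjJ m q M' A I)
    (hle : I ≤ I') : RSurjJ m q M' A I' := fun y hy => by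
  obtain ⟨x, hx, hxy⟩ := h y hy
  exact ⟨x, hle hx, hxy⟩

/-- R-SURJ1 in J-form from the surjectivity of ANY homomorphism computing the reduction classes
on a subgroup `F₁ ≤ 𝓕` (e.g. `exists_redHom_h296` restricted to the inertia-fixed classes). -/
theorem rSurjJ_of_hom_surj (I : AddSubgroup (JZero (q * M')))
    (F₁ : AddSubgroup (JZero (q * M'))) (hF₁ : F₁ ≤ I)
    (red : ↥F₁ → JZeroC (kA A) M' × JZeroC (kA A) M')
    (hred : ∀ x : ↥F₁, IsRedClassQ m q M' A (x : JZero (q * M')) (red x))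
    (hsurj : ∀ y : JZeroC (kA A) M' × JZeroC (kA A) M', m • y = 0 → ∃ x : ↥F₁, red x = y) :
    RSurjJ m q M' A I := fun y hy => by
  obtain ⟨x, rfl⟩ := hsurj y hy
  exact ⟨x, hF₁ x.2, hred x⟩

/-- **Kummer generators with prescribed reductions** (up to constants and `m`-th powers). -/
theorem kummerGen_of_rSurjJ (hm : m ≠ 0) (hq : q.Prime) (hqM : ¬ q ∣ M')
    (hA : A.LiesOverPrime q) {I : AddSubgroup (JZero (q * M'))} (h : RSurjJ m q M' A I)
    {ρ₁ ρ₂ : LaurentSeries (kA A)} (h₁ : PDivSeries m M' ρ₁) (h₂ : PDivSeries m M' ρ₂) :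
    ∃ x ∈ I, ∃ (f : FF (q * M')) (r₁ r₂ : LaurentSeries (kA A)),
      IsKummerGen (q * M') m f x ∧ IsRedInf (q * M') A f r₁ ∧ IsRedZero (q * M') A f r₂ ∧
      (∃ (c : kA A) (s : modularFunctionFieldFullC (kA A) M'), c ≠ 0 ∧ s ≠ 0 ∧
        r₁ = HahnSeries.C c * ρ₁ * (s : LaurentSeries (kA A)) ^ m) ∧
      (∃ (c : kA A) (s : modularFunctionFieldFullC (kA A) M'), c ≠ 0 ∧ s ≠ 0 ∧
        r₂ = HahnSeries.C c * ρ₂ * (s : LaurentSeries (kA A)) ^ m) := by
  haveI := hpd_h296 (M' := M') hq hqM hA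
  have hconst := hconst_h296 (M' := M') hq hqM hA
  obtain ⟨y₁, hy₁⟩ := exists_isRootClass hm h₁
  obtain ⟨y₂, hy₂⟩ := exists_isRootClass hm h₂
  have hy : m • ((y₁, y₂) : JZeroC (kA A) M' × JZeroC (kA A) M') = 0 :=
    Prod.ext hy₁.nsmul_eq_zero hy₂.nsmul_eq_zero
  obtain ⟨x, hxI, f, r₁, r₂, hf, hr1, hr2, hc1, hc2⟩ := h (y₁, y₂) hy
  exact ⟨x, hxI, f, r₁, r₂, hf, hr1, hr2, hc1.exists_factor hconst hy₁,
    hc2.exists_factor hconst hy₂⟩

/-- The case `ρ∞ = 1` (the form `(0, *)` consumed by the reduction half of W-SUB). -/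
theorem kummerGen_of_rSurjJ_one (hm : m ≠ 0) (hq : q.Prime) (hqM : ¬ q ∣ M')
    (hA : A.LiesOverPrime q) {I : AddSubgroup (JZero (q * M'))} (h : RSurjJ m q M' A I)
    {ρ : LaurentSeries (kA A)} (hρ : PDivSeries m M' ρ) :
    ∃ x ∈ I, ∃ (f : FF (q * M')) (r₁ r₂ : LaurentSeries (kA A)),
      IsKummerGen (q * M') m f x ∧ IsRedInf (q * M') A f r₁ ∧ IsRedZero (q * M') A f r₂ ∧
      PPowSeries m M' r₁ ∧
      (∃ (c : kA A) (s : modularFunctionFieldFullC (kA A) M'), c ≠ 0 ∧ s ≠ 0 ∧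
        r₂ = HahnSeries.C c * ρ * (s : LaurentSeries (kA A)) ^ m) := by
  obtain ⟨x, hxI, f, r₁, r₂, hf, hr1, hr2, ⟨c, s, hc, hs, e⟩, h2⟩ :=
    kummerGen_of_rSurjJ hm hq hqM hA h (I2.pDivSeries_one m M') hρ
  refine ⟨x, hxI, f, r₁, r₂, hf, hr1, hr2, ⟨c, s, hc, hs, ?_⟩, h2⟩
  rw [e, mul_one]

end Surj

end Fermat.Agent.S59.LoSqC.H296

end
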