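import Fermat.Agent.A2.Mod.Spec
import Fermat.Agent.A2.T1.H669.T2

/-!
# S59 moonshot, cell (C) LO-SQ, W-COUNT: LAB-J = the link between the J-form count and the E-form
  label group  (helper296)

`E ⊆ ℚ̄` an intermediate field, `F_E = A2.Mod.FE E N`, `ι : F_E → F̄ = ℚ̄(X₀(N))`, ANY modulus
`m ≠ 0`, ANY subgroup `U ≤ F_Eˣ` (application: `U = H193.splitDiv E w x' m V₁' V₂'`, the
normalised `E`-rational Kummer generators of the toric classes).

* `IsKummerGenE296 E N m f x` : `f ∈ F_E` is an `E`-rational Kummer generator of `x ∈ J₀(N)`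
  (`x = [D]`, `div (ι f) = m D`); the body is VERBATIM the body of `LoSqC.IsKummerGenE`
  (frozen Spec of helper885), so the two are interchangeable by `Iff.rfl`.
* `kummerClasses296 E N m U : AddSubgroup (JZero N)` : the classes with a Kummer generator in `U`
  (`= S_1`, the toric part in the count, for `U = splitDiv`).
* **`exists_injective_kummerClasses296`** : an INJECTION
  `kummerClasses296 E N m U → U ⧸ (m-th powers of F_Eˣ)` (choice of a generator; two generators
  which differ by an `m`-th power define the same class).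
* `card_kummerClasses296_le`, `finite_kummerClasses296`, `le_card_quot_of_le_card296`.

Use in the count: with `card_splitPure_le` (helper193) `#(splitDiv ⧸ powers) ≤ m ^ (#Σ - 1)` this
gives the hypothesis `hS1 : #S_1 ≤ m ^ (#Σ - 1)` of the abstract count; the conclusion
`#S_1 = m ^ (#Σ - 1)` of the count then gives the hypothesis
`m ^ (#Σ - 1) ≤ #(splitDiv ⧸ powers)` of `H193.lab1SurjAt_of_card`.
* `IsKummerGenE296.nsmul_of_mul`, `kummerClasses296_nsmul_mem` : compatibility in the modulus.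
-/

set_option autoImplicit false
set_option linter.unusedSectionVars false
set_option linter.unusedVariables false
set_option linter.style.haveILetI false
set_option synthInstance.maxHeartbeats 400000
set_option maxHeartbeats 1000000

noncomputable section

namespace Fermat.Agent.S59.LoSqC.H296

open AlgebraicCurve ModularCurve

section LabJ

variable (E : IntermediateField ℚ (AlgebraicClosure ℚ)) (N : ℕ) [NeZero N]

/-- `f ∈ F_E(N)` is an `E`-rational Kummer generator of `x ∈ J₀(N)` for the modulus `m`. -/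
def IsKummerGenE296 (m : ℕ) (f : A2.Mod.FE E N) (x : JZero N) : Prop :=
  f ≠ 0 ∧ ∃ D : Divisor.degZero (K := AlgebraicClosure ℚ) (F := modularFunctionFieldBar N),
    Pic0.mk D = x ∧
    ∀ v : Place (AlgebraicClosure ℚ) (modularFunctionFieldBar N),
      v.ord (A2.T1.H669.iota E (modularFunctionFieldFull N) f)
        = (m : ℤ) * (D : Divisor (AlgebraicClosure ℚ) (modularFunctionFieldBar N)) v

variable {E N}

theorem isKummerGenE296_one (m : ℕ) : IsKummerGenE296 E N m (1 : A2.Mod.FE E N) 0 := by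
  refine ⟨one_ne_zero, 0, rfl, fun v => ?_⟩
  rw [map_one, Place.ord_one]
  simp

theorem IsKummerGenE296.mul {m : ℕ} {f g : A2.Mod.FE E N} {x y : JZero N}
    (hf : IsKummerGenE296 E N m f x) (hg : IsKummerGenE296 E N m g y) :
    IsKummerGenE296 E N m (f * g) (x + y) := by
  obtain ⟨hf0, D, rfl, hD⟩ := hf
  obtain ⟨hg0, D', rfl, hD'⟩ := hg
  refine ⟨mul_ne_zero hf0 hg0, D + D', rfl, fun v => ?_⟩
  rw [map_mul, v.ord_mul (A2.T1.H669.iota_ne_zero E _ hf0) (A2.T1.H669.iota_ne_zero E _ hg0),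
    hD v, hD' v]
  simp [mul_add]

theorem IsKummerGenE296.inv {m : ℕ} {f : A2.Mod.FE E N} {x : JZero N}
    (hf : IsKummerGenE296 E N m f x) : IsKummerGenE296 E N m f⁻¹ (-x) := by
  obtain ⟨hf0, D, rfl, hD⟩ := hf
  refine ⟨inv_ne_zero hf0, -D, rfl, fun v => ?_⟩
  rw [map_inv₀, v.ord_inv, hD v]
  simp

/-- A Kummer generator determines its class. -/
theorem IsKummerGenE296.unique {m : ℕ} (hm : m ≠ 0) {f : A2.Mod.FE E N} {x y : JZero N}
    (hx : IsKummerGenE296 E N m f x) (hy : IsKummerGenE296 E N m f y) : x = y := by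
  obtain ⟨-, D, rfl, hD⟩ := hx
  obtain ⟨-, D', rfl, hD'⟩ := hy
  have hm' : (m : ℤ) ≠ 0 := by exact_mod_cast hm
  have : D = D' := by
    apply Subtype.ext
    ext v
    exact mul_left_cancel₀ hm' ((hD v).symm.trans (hD' v))
  rw [this]

/-- The class of a Kummer generator is killed by the modulus. -/
theorem IsKummerGenE296.nsmul_eq_zero {m : ℕ} {f : A2.Mod.FE E N} {x : JZero N}
    (hx : IsKummerGenE296 E N m f x) : m • x = 0 := by
  obtain ⟨hf0, D, rfl, hD⟩ := hx
  have e : m • (Pic0.mk D : JZero N) = Pic0.mk (m • D) := rfl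
  rw [e]
  show (QuotientAddGroup.mk (m • D) :
    Pic0 (AlgebraicClosure ℚ) (modularFunctionFieldBar N)) = 0
  refine (QuotientAddGroup.eq_zero_iff (m • D)).mpr ?_
  rw [AddSubgroup.mem_addSubgroupOf]
  refine ⟨A2.T1.H669.iota E (modularFunctionFieldFull N) f,
    A2.T1.H669.iota_ne_zero E _ hf0, fun v => ?_⟩
  rw [hD v]
  simp

/-- Generators which differ by an `m`-th power define the same class. -/
theorem IsKummerGenE296.eq_of_mul_pow {m : ℕ} (hm : m ≠ 0) {f g h : A2.Mod.FE E N}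
    {x y : JZero N} (hx : IsKummerGenE296 E N m f x) (hy : IsKummerGenE296 E N m g y)
    (hh : h ≠ 0) (he : g = f * h ^ m) : x = y := by
  obtain ⟨hf0, D, rfl, hD⟩ := hx
  obtain ⟨hg0, D', rfl, hD'⟩ := hy
  have hm' : (m : ℤ) ≠ 0 := by exact_mod_cast hm
  have hιh : A2.T1.H669.iota E (modularFunctionFieldFull N) h ≠ 0 :=
    A2.T1.H669.iota_ne_zero E _ hh
  have hιf : A2.T1.H669.iota E (modularFunctionFieldFull N) f ≠ 0 :=
    A2.T1.H669.iota_ne_zero E _ hf0
  have key : ∀ v : Place (AlgebraicClosure ℚ) (modularFunctionFieldBar N),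
      (D' : Divisor (AlgebraicClosure ℚ) (modularFunctionFieldBar N)) v =
        (D : Divisor (AlgebraicClosure ℚ) (modularFunctionFieldBar N)) v +
          v.ord (A2.T1.H669.iota E (modularFunctionFieldFull N) h) := fun v => by
    have h1 := hD' v
    rw [he, map_mul, map_pow, v.ord_mul hιf (pow_ne_zero _ hιh), hD v, ← zpow_natCast,
      v.ord_zpow, ← mul_add] at h1
    exact (mul_left_cancel₀ hm' h1).symm
  show (QuotientAddGroup.mk D : Pic0 (AlgebraicClosure ℚ) (modularFunctionFieldBar N)) =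
    QuotientAddGroup.mk D'
  refine QuotientAddGroup.eq.mpr ?_
  rw [AddSubgroup.mem_addSubgroupOf]
  refine ⟨A2.T1.H669.iota E (modularFunctionFieldFull N) h, hιh, fun v => ?_⟩
  have h2 : ((-D + D' : Divisor.degZero (K := AlgebraicClosure ℚ)
      (F := modularFunctionFieldBar N)) :
      Divisor (AlgebraicClosure ℚ) (modularFunctionFieldBar N)) v =
      -(D : Divisor (AlgebraicClosure ℚ) (modularFunctionFieldBar N)) v +
        (D' : Divisor (AlgebraicClosure ℚ) (modularFunctionFieldBar N)) v := by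
    simp
  rw [h2, key v]
  ring

/-- Change of modulus: a Kummer generator of `x` for `m · d` is a Kummer generator of `d • x`
for `m`. -/
theorem IsKummerGenE296.nsmul_of_mul {m d : ℕ} {f : A2.Mod.FE E N} {x : JZero N}
    (hx : IsKummerGenE296 E N (m * d) f x) : IsKummerGenE296 E N m f (d • x) := by
  obtain ⟨hf0, D, rfl, hD⟩ := hx
  refine ⟨hf0, d • D, rfl, fun v => ?_⟩
  rw [hD v, AddSubgroup.coe_nsmul, Finsupp.smul_apply, nsmul_eq_mul]
  push_cast
  ring

/-- Change of modulus: the `d`-th power of a Kummer generator of `x` for `m` is a Kummer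
generator of `x` for `m · d`. -/
theorem IsKummerGenE296.pow_modulus {m : ℕ} {f : A2.Mod.FE E N} {x : JZero N}
    (hx : IsKummerGenE296 E N m f x) (d : ℕ) : IsKummerGenE296 E N (m * d) (f ^ d) x := by
  obtain ⟨hf0, D, rfl, hD⟩ := hx
  refine ⟨pow_ne_zero _ hf0, D, rfl, fun v => ?_⟩
  rw [map_pow, ← zpow_natCast, v.ord_zpow, hD v]
  push_cast
  ring

variable (E N)

/-- **The classes with a Kummer generator in `U`.** -/
def kummerClasses296 (m : ℕ) (U : Subgroup (A2.Mod.FE E N)ˣ) : AddSubgroup (JZero N) where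
  carrier := {x | ∃ u ∈ U, IsKummerGenE296 E N m ((u : (A2.Mod.FE E N)ˣ) : A2.Mod.FE E N) x}
  zero_mem' := ⟨1, U.one_mem, by
    rw [Units.val_one]
    exact isKummerGenE296_one m⟩
  add_mem' := by
    rintro x y ⟨u, hu, hux⟩ ⟨v, hv, hvy⟩
    refine ⟨u * v, U.mul_mem hu hv, ?_⟩
    rw [Units.val_mul]
    exact hux.mul hvy
  neg_mem' := by
    rintro x ⟨u, hu, hux⟩
    refine ⟨u⁻¹, U.inv_mem hu, ?_⟩
    rw [Units.val_inv_eq_inv_val]
    exact hux.inv

variable {E N}

theorem mem_kummerClasses296 {m : ℕ} {U : Subgroup (A2.Mod.FE E N)ˣ} {x : JZero N} :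
    x ∈ kummerClasses296 E N m U ↔
      ∃ u ∈ U, IsKummerGenE296 E N m ((u : (A2.Mod.FE E N)ˣ) : A2.Mod.FE E N) x :=
  Iff.rfl

theorem kummerClasses296_mono {m : ℕ} {U U' : Subgroup (A2.Mod.FE E N)ˣ} (h : U ≤ U') :
    kummerClasses296 E N m U ≤ kummerClasses296 E N m U' := by
  rintro x ⟨u, hu, hux⟩
  exact ⟨u, h hu, hux⟩

theorem nsmul_eq_zero_of_mem_kummerClasses296 {m : ℕ} {U : Subgroup (A2.Mod.FE E N)ˣ}
    {x : JZero N} (hx : x ∈ kummerClasses296 E N m U) : m • x = 0 := by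
  obtain ⟨u, -, hux⟩ := hx
  exact hux.nsmul_eq_zero

/-- Compatibility in the modulus (`hSc` of the count): if `U' ≤ U` then
`d • kummerClasses (m d) U' ⊆ kummerClasses m U`. -/
theorem kummerClasses296_nsmul_mem {m d : ℕ} {U U' : Subgroup (A2.Mod.FE E N)ˣ}
    (h : U' ≤ U) {x : JZero N} (hx : x ∈ kummerClasses296 E N (m * d) U') :
    d • x ∈ kummerClasses296 E N m U := by
  obtain ⟨u, hu, hux⟩ := hx
  exact ⟨u, h hu, hux.nsmul_of_mul⟩

/-- **LAB-J.**  An injection of the classes with a Kummer generator in `U` into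
`U ⧸ (m-th powers)`. -/
theorem exists_injective_kummerClasses296 {m : ℕ} (hm : m ≠ 0)
    (U : Subgroup (A2.Mod.FE E N)ˣ) :
    ∃ g : ↥(kummerClasses296 E N m U) →
        U ⧸ ((powMonoidHom m : (A2.Mod.FE E N)ˣ →* (A2.Mod.FE E N)ˣ).range).subgroupOf U,
      Function.Injective g := by
  classical
  have hex : ∀ x : ↥(kummerClasses296 E N m U), ∃ u : U,
      IsKummerGenE296 E N m (((u : U) : (A2.Mod.FE E N)ˣ) : A2.Mod.FE E N) (x : JZero N) := by
    rintro ⟨x, u, hu, hux⟩
    exact ⟨⟨u, hu⟩, hux⟩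
  choose γ hγ using hex
  refine ⟨fun x => QuotientGroup.mk (γ x), fun x y hxy => ?_⟩
  have h1 : (γ x)⁻¹ * γ y ∈
      ((powMonoidHom m : (A2.Mod.FE E N)ˣ →* (A2.Mod.FE E N)ˣ).range).subgroupOf U :=
    QuotientGroup.eq.mp hxy
  rw [Subgroup.mem_subgroupOf] at h1
  obtain ⟨h, hh⟩ := h1
  have hh' : ((γ y : U) : (A2.Mod.FE E N)ˣ) = ((γ x : U) : (A2.Mod.FE E N)ˣ) * h ^ m := by
    have e1 : h ^ m = (((γ x)⁻¹ * γ y : U) : (A2.Mod.FE E N)ˣ) := hh
    rw [e1]
    simp
  have hh'' : ((((γ y : U) : (A2.Mod.FE E N)ˣ)) : A2.Mod.FE E N) =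
      ((((γ x : U) : (A2.Mod.FE E N)ˣ)) : A2.Mod.FE E N) *
        ((h : (A2.Mod.FE E N)ˣ) : A2.Mod.FE E N) ^ m := by
    rw [hh']
    simp
  apply Subtype.ext
  exact (hγ x).eq_of_mul_pow hm (hγ y) (Units.ne_zero h) hh''

/-- The cardinality form of LAB-J. -/
theorem card_kummerClasses296_le {m : ℕ} (hm : m ≠ 0) (U : Subgroup (A2.Mod.FE E N)ˣ)
    [Finite (U ⧸ ((powMonoidHom m : (A2.Mod.FE E N)ˣ →* (A2.Mod.FE E N)ˣ).range).subgroupOf U)] :
    Nat.card ↥(kummerClasses296 E N m U) ≤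
      Nat.card
        (U ⧸ ((powMonoidHom m : (A2.Mod.FE E N)ˣ →* (A2.Mod.FE E N)ˣ).range).subgroupOf U) := by
  obtain ⟨g, hg⟩ := exists_injective_kummerClasses296 hm U
  exact Nat.card_le_card_of_injective g hg

theorem finite_kummerClasses296 {m : ℕ} (hm : m ≠ 0) (U : Subgroup (A2.Mod.FE E N)ˣ)
    [Finite (U ⧸ ((powMonoidHom m : (A2.Mod.FE E N)ˣ →* (A2.Mod.FE E N)ˣ).range).subgroupOf U)] :
    Finite ↥(kummerClasses296 E N m U) := by
  obtain ⟨g, hg⟩ := exists_injective_kummerClasses296 hm U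
  exact Finite.of_injective g hg

/-- **From the count to the E-form**: a lower bound for the number of classes is a lower bound
for `U ⧸ (m-th powers)` (input `hcard` of `H193.lab1SurjAt_of_card`, for `U = splitDiv`). -/
theorem le_card_quot_of_le_card296 {m : ℕ} (hm : m ≠ 0) (U : Subgroup (A2.Mod.FE E N)ˣ)
    [Finite (U ⧸ ((powMonoidHom m : (A2.Mod.FE E N)ˣ →* (A2.Mod.FE E N)ˣ).range).subgroupOf U)]
    {c : ℕ} (hc : c ≤ Nat.card ↥(kummerClasses296 E N m U)) :
    c ≤ Nat.card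
      (U ⧸ ((powMonoidHom m : (A2.Mod.FE E N)ˣ →* (A2.Mod.FE E N)ˣ).range).subgroupOf U) :=
  hc.trans (card_kummerClasses296_le hm U)

/-- **From the E-form to the count**: an upper bound for `U ⧸ (m-th powers)` (e.g.
`H193.card_splitPure_le`) is an upper bound for the number of classes (hypothesis `hS1` of the
abstract count). -/
theorem card_kummerClasses296_le_of_quot_le {m : ℕ} (hm : m ≠ 0)
    (U : Subgroup (A2.Mod.FE E N)ˣ)
    [Finite (U ⧸ ((powMonoidHom m : (A2.Mod.FE E N)ˣ →* (A2.Mod.FE E N)ˣ).range).subgroupOf U)]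
    {c : ℕ}
    (hc : Nat.card
      (U ⧸ ((powMonoidHom m : (A2.Mod.FE E N)ˣ →* (A2.Mod.FE E N)ˣ).range).subgroupOf U) ≤ c) :
    Nat.card ↥(kummerClasses296 E N m U) ≤ c :=
  (card_kummerClasses296_le hm U).trans hc

end LabJ

end Fermat.Agent.S59.LoSqC.H296

end
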