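import Fermat.Agent.S59.LoSqC.H296.RootDiv

/-!
# S59 moonshot, cell (C) LO-SQ, W-COUNT sub-leaf RED-HOM, part 2: the reduction homomorphism
  (helper296)

Level `N = q · M'`, `q ∤ M'`, `A` a valuation subring of `ℚ̄` over `q`, `k = kA A`,
`F_k = modularFunctionFieldFullC k M'`, ANY modulus `m ≠ 0` (`m = p ^ n`, `p = 3` included; no
hypothesis `5 ≤ p`, no hypothesis `q ≠ 2`, no good-level hypothesis).

WALL-q vocabulary (main): `H158.WallQ.finPartQ m q M' A` (classes with a Kummer generator whose two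
reductions have `m`-divisible divisors), `splitPartQ m q M' A` (… are constants times `m`-th
powers).

* `IsRedClassQ m q M' A x y` : `y = (y∞, y₀) ∈ Pic⁰(F_k)²` are the classes of the `m`-th roots of
  the divisors of the two reductions of a Kummer generator of `x`;
* it is functional (`IsRedClassQ.unique` = GEN-INDEP), additive, defined exactly on `finPartQ`,
  `m`-torsion valued, and `y = 0` iff `x ∈ splitPartQ`;
* **`exists_redHom_h296`** : the homomorphism
  `red : finPartQ m q M' A →+ JZeroC k M' × JZeroC k M'` with `m • red x = 0` and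
  `red x = 0 ↔ x ∈ splitPartQ m q M' A`;
* `IsRedClassQ.pow_modulus` : compatibility of the reductions for the moduli `m ∣ m · d`.
-/

set_option autoImplicit false
set_option linter.unusedSectionVars false
set_option linter.unusedVariables false
set_option linter.style.haveILetI false
set_option synthInstance.maxHeartbeats 400000
set_option maxHeartbeats 1000000

noncomputable section

namespace Fermat.Agent.S59.LoSqC.H296

open AlgebraicCurve ModularCurve HahnSeries
open Fermat.Agent.S24 Fermat.Agent.A2.H708 Fermat.Agent.A2.H528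
open Fermat.Agent.Ribet.Spec Fermat.Agent.Ribet.H944.Wall Fermat.Agent.Ribet.H884
open Fermat.Agent.Ribet.H158.WallQ
open Fermat.Agent.Ribet.H944
open Fermat.Agent.Ribet.H708.Q3Pow

section Level

variable {m q M' : ℕ} [NeZero M'] [NeZero q] [NeZero (q * M')] {A : ValuationSubring Kbar}

/-- The primes dividing `M'` are invertible in the residue field of `A` (`A` over `q ∤ M'`). -/
theorem hchar_h296 (hq : q.Prime) (hqM : ¬ q ∣ M') (hA : A.LiesOverPrime q) :
    ∀ p' : ℕ, p'.Prime → p' ∣ M' → (p' : kA A) ≠ 0 := by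
  obtain ⟨hac, hch⟩ := Fermat.Agent.Ribet.H939.resField q hq A hA
  haveI := hch
  intro p' hp' hd h0
  have h1 : q ∣ p' := (CharP.cast_eq_zero_iff (kA A) q p').mp h0
  have h2 : q = p' := (Nat.prime_dvd_prime_iff_eq hq hp').mp h1
  exact hqM (h2 ▸ hd)

theorem hpd_h296 (hq : q.Prime) (hqM : ¬ q ∣ M') (hA : A.LiesOverPrime q) :
    HasPrincipalDivisors (kA A) (modularFunctionFieldFullC (kA A) M') := by
  obtain ⟨hac, hch⟩ := Fermat.Agent.Ribet.H939.resField q hq A hA
  haveI := hac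
  exact Fermat.Agent.S37.H868.hpd_fullC (kA A) M' (hchar_h296 hq hqM hA)

theorem hconst_h296 (hq : q.Prime) (hqM : ¬ q ∣ M') (hA : A.LiesOverPrime q) :
    ∀ u : modularFunctionFieldFullC (kA A) M', u ≠ 0 →
      (∀ v : Place (kA A) (modularFunctionFieldFullC (kA A) M'), v.ord u = 0) →
      ∃ c : kA A, u = algebraMap (kA A) (modularFunctionFieldFullC (kA A) M') c := by
  obtain ⟨hac, hch⟩ := Fermat.Agent.Ribet.H939.resField q hq A hA
  haveI := hac
  exact Fermat.Agent.S18.H144.constOfOrdZero_fullC (kA A) M' (hchar_h296 hq hqM hA)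

/-- **The reduction relation**: `y = (y∞, y₀)` are the classes in `Pic⁰(F_k)` of the `m`-th roots
of the divisors of the reductions (on the `∞`- and on the `0`-component) of a Kummer generator of
`x`. -/
def IsRedClassQ (m q M' : ℕ) [NeZero M'] [NeZero (q * M')] (A : ValuationSubring Kbar)
    (x : JZero (q * M')) (y : JZeroC (kA A) M' × JZeroC (kA A) M') : Prop :=
  ∃ (f : FF (q * M')) (r₁ r₂ : LaurentSeries (kA A)),
    IsKummerGen (q * M') m f x ∧ IsRedInf (q * M') A f r₁ ∧ IsRedZero (q * M') A f r₂ ∧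
    IsRootClass m M' r₁ y.1 ∧ IsRootClass m M' r₂ y.2

theorem isRedClassQ_zero :
    IsRedClassQ m q M' A (0 : JZero (q * M')) (0 : JZeroC (kA A) M' × JZeroC (kA A) M') :=
  ⟨1, 1, 1, I2.isKummerGen_one _ _, I2.isRedInf_one _ A, isRedZero_one',
    isRootClass_one m M' (kA A), isRootClass_one m M' (kA A)⟩

theorem IsRedClassQ.add {x x' : JZero (q * M')}
    {y y' : JZeroC (kA A) M' × JZeroC (kA A) M'} (h : IsRedClassQ m q M' A x y)
    (h' : IsRedClassQ m q M' A x' y') : IsRedClassQ m q M' A (x + x') (y + y') := by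
  obtain ⟨f, r₁, r₂, hf, h1, h2, h3, h4⟩ := h
  obtain ⟨f', r₁', r₂', hf', h1', h2', h3', h4'⟩ := h'
  exact ⟨f * f', r₁ * r₁', r₂ * r₂', I2.isKummerGen_mul _ _ hf hf',
    I2.isRedInf_mul _ A h1 h1', isRedZero_mul' h2 h2', h3.mul h3', h4.mul h4'⟩

theorem IsRedClassQ.neg {x : JZero (q * M')} {y : JZeroC (kA A) M' × JZeroC (kA A) M'}
    (h : IsRedClassQ m q M' A x y) : IsRedClassQ m q M' A (-x) (-y) := by
  obtain ⟨f, r₁, r₂, hf, h1, h2, h3, h4⟩ := h
  exact ⟨f⁻¹, r₁⁻¹, r₂⁻¹, I2.isKummerGen_inv _ _ hf, I2.isRedInf_inv _ A h1,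
    isRedZero_inv' h2, h3.inv, h4.inv⟩

/-- The relation lives on `finSetQ`. -/
theorem IsRedClassQ.mem_finSetQ {x : JZero (q * M')}
    {y : JZeroC (kA A) M' × JZeroC (kA A) M'} (h : IsRedClassQ m q M' A x y) :
    x ∈ finSetQ m q M' A := by
  obtain ⟨f, r₁, r₂, hf, h1, h2, h3, h4⟩ := h
  exact ⟨f, hf, r₁, r₂, h1, h2, h3.pDiv, h4.pDiv⟩

theorem IsRedClassQ.mem_finPartQ {x : JZero (q * M')}
    {y : JZeroC (kA A) M' × JZeroC (kA A) M'} (h : IsRedClassQ m q M' A x y) :
    x ∈ finPartQ m q M' A :=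
  AddSubgroup.subset_closure h.mem_finSetQ

/-- The values are killed by `m`. -/
theorem IsRedClassQ.nsmul_eq_zero {x : JZero (q * M')}
    {y : JZeroC (kA A) M' × JZeroC (kA A) M'} (h : IsRedClassQ m q M' A x y) : m • y = 0 := by
  obtain ⟨f, r₁, r₂, hf, h1, h2, h3, h4⟩ := h
  exact Prod.ext h3.nsmul_eq_zero h4.nsmul_eq_zero

/-- The classes are killed by `m`. -/
theorem IsRedClassQ.nsmul_class_eq_zero {x : JZero (q * M')}
    {y : JZeroC (kA A) M' × JZeroC (kA A) M'} (h : IsRedClassQ m q M' A x y) : m • x = 0 := by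
  obtain ⟨f, r₁, r₂, ⟨hf0, D, rfl, hD⟩, -⟩ := h
  have e : m • (Pic0.mk D : JZero (q * M')) = Pic0.mk (m • D) := rfl
  rw [e]
  show (QuotientAddGroup.mk (m • D) : Pic0 Kbar (FF (q * M'))) = 0
  refine (QuotientAddGroup.eq_zero_iff (m • D)).mpr ?_
  rw [AddSubgroup.mem_addSubgroupOf]
  refine ⟨f, hf0, fun Q => ?_⟩
  rw [hD Q]
  simp

/-- **Existence**: every class of `finPartQ` has reduction classes. -/
theorem exists_isRedClassQ (hm : m ≠ 0) (hq : q.Prime) (hqM : ¬ q ∣ M')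
    (hA : A.LiesOverPrime q) {x : JZero (q * M')} (hx : x ∈ finPartQ m q M' A) :
    ∃ y : JZeroC (kA A) M' × JZeroC (kA A) M', IsRedClassQ m q M' A x y := by
  haveI := hpd_h296 (M' := M') hq hqM hA
  obtain ⟨f, hf, r₁, r₂, h1, h2, h3, h4⟩ := mem_finSetQ_of_mem_finPartQ hx
  obtain ⟨y₁, hy₁⟩ := exists_isRootClass hm h3
  obtain ⟨y₂, hy₂⟩ := exists_isRootClass hm h4
  exact ⟨(y₁, y₂), f, r₁, r₂, hf, h1, h2, hy₁, hy₂⟩

/-- Functions which differ by a constant and an `m`-th power have reductions with the same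
class. -/
theorem rootClass_eq_of_factor (hm : m ≠ 0) (hq : q.Prime) (hqM : ¬ q ∣ M')
    (hA : A.LiesOverPrime q) {F₁ F₂ G : FF (q * M')} {c : Kbar} (hc : c ≠ 0)
    (hF : F₁ = algebraMap Kbar (FF (q * M')) c * F₂ * G ^ m)
    {r s g : LaurentSeries (kA A)} (hr : IsRedInf (q * M') A F₁ r)
    (hs : IsRedInf (q * M') A F₂ s) (hg : IsRedInf (q * M') A G g)
    (hgF : g ∈ modularFunctionFieldFullC (kA A) M')
    {y y' : JZeroC (kA A) M'} (hy : IsRootClass m M' r y) (hy' : IsRootClass m M' s y') :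
    y = y' := by
  have h1 : IsRedInf (q * M') A F₁ (1 * s * g ^ m) := by
    rw [hF]
    exact I2.isRedInf_mul _ A (I2.isRedInf_mul _ A (I2.isRedInf_const _ A hc) hs)
      (I2.isRedInf_pow _ A hg m)
  obtain ⟨-, u, hu, hr'⟩ := Fermat.Agent.Ribet.H997.redUnique q (q * M') hq A hA F₁ _ r h1 hr
  have hg0 : g ≠ 0 := (I2.isRedInf_ne_zero _ A hg).2
  refine hy.eq_of_factor hm hy' hu hgF hg0 ?_
  rw [hr', one_mul, mul_assoc]

/-- **GEN-INDEP / uniqueness**: the reduction classes do not depend on the Kummer generator nor on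
the chosen reductions. -/
theorem IsRedClassQ.unique (hm : m ≠ 0) (hq : q.Prime) (hqM : ¬ q ∣ M')
    (hA : A.LiesOverPrime q) {x : JZero (q * M')}
    {y y' : JZeroC (kA A) M' × JZeroC (kA A) M'} (h : IsRedClassQ m q M' A x y)
    (h' : IsRedClassQ m q M' A x y') : y = y' := by
  obtain ⟨f, r₁, r₂, hf, h1, h2, h3, h4⟩ := h
  obtain ⟨f', r₁', r₂', hf', h1', h2', h3', h4'⟩ := h'
  obtain ⟨c, G, hc, hG, hFeq⟩ := kummerGen_ratio hf hf'
  obtain ⟨⟨g₁, hg1⟩, ⟨g₂, hg2⟩⟩ :=
    Fermat.Agent.Ribet.H997.redExists q (q * M') hq A hA G hG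
  obtain ⟨k₁, hk1⟩ :=
    Fermat.Agent.Ribet.H997.redField q M' hq hqM A hA G g₁ (Or.inl hg1)
  obtain ⟨k₂, hk2⟩ :=
    Fermat.Agent.Ribet.H997.redField q M' hq hqM A hA G g₂ (Or.inr hg2)
  refine Prod.ext ?_ ?_
  · exact rootClass_eq_of_factor hm hq hqM hA hc hFeq h1 h1' hg1 (hk1 ▸ k₁.2) h3 h3'
  · have hFw : wF (q * M') f =
        algebraMap Kbar (FF (q * M')) c * wF (q * M') f' * (wF (q * M') G) ^ m := by
      rw [hFeq, map_mul, map_mul, map_pow, AlgEquiv.commutes]
    exact rootClass_eq_of_factor hm hq hqM hA hc hFw h2 h2' hg2 (hk2 ▸ k₂.2) h4 h4'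

/-- **Kernel**: a class with trivial reduction classes is split. -/
theorem IsRedClassQ.mem_splitSetQ (hq : q.Prime) (hqM : ¬ q ∣ M') (hA : A.LiesOverPrime q)
    {x : JZero (q * M')}
    (h : IsRedClassQ m q M' A x (0 : JZeroC (kA A) M' × JZeroC (kA A) M')) :
    x ∈ splitSetQ m q M' A := by
  obtain ⟨f, r₁, r₂, hf, h1, h2, h3, h4⟩ := h
  have hconst := hconst_h296 (M' := M') hq hqM hA
  exact ⟨f, hf, r₁, r₂, h1, h2, IsRootClass.pPow hconst h3, IsRootClass.pPow hconst h4⟩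

/-- Split classes have trivial reduction classes. -/
theorem isRedClassQ_zero_of_mem_splitPartQ (hq : q.Prime) (hqM : ¬ q ∣ M')
    (hA : A.LiesOverPrime q) {x : JZero (q * M')} (hx : x ∈ splitPartQ m q M' A) :
    IsRedClassQ m q M' A x (0 : JZeroC (kA A) M' × JZeroC (kA A) M') := by
  haveI := hpd_h296 (M' := M') hq hqM hA
  obtain ⟨f, hf, r₁, r₂, h1, h2, h3, h4⟩ := mem_splitSetQ_of_mem_splitPartQ hx
  exact ⟨f, r₁, r₂, hf, h1, h2, isRootClass_zero_of_pPow h3, isRootClass_zero_of_pPow h4⟩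

/-- `𝒮 ≤ 𝓕`. -/
theorem splitPartQ_le_finPartQ_h296 (hq : q.Prime) (hqM : ¬ q ∣ M')
    (hA : A.LiesOverPrime q) : splitPartQ m q M' A ≤ finPartQ m q M' A := fun _ hx =>
  (isRedClassQ_zero_of_mem_splitPartQ hq hqM hA hx).mem_finPartQ

/-- The reduction classes vanish exactly on the split part. -/
theorem IsRedClassQ.eq_zero_iff (hm : m ≠ 0) (hq : q.Prime) (hqM : ¬ q ∣ M')
    (hA : A.LiesOverPrime q) {x : JZero (q * M')}
    {y : JZeroC (kA A) M' × JZeroC (kA A) M'} (h : IsRedClassQ m q M' A x y) :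
    y = 0 ↔ x ∈ splitPartQ m q M' A := by
  constructor
  · rintro rfl
    exact AddSubgroup.subset_closure (h.mem_splitSetQ hq hqM hA)
  · intro hx
    exact h.unique hm hq hqM hA (isRedClassQ_zero_of_mem_splitPartQ hq hqM hA hx)

/-- Change of modulus: the reduction classes for `m` are the reduction classes for `m · d`. -/
theorem IsRedClassQ.pow_modulus {x : JZero (q * M')}
    {y : JZeroC (kA A) M' × JZeroC (kA A) M'} (h : IsRedClassQ m q M' A x y) {d : ℕ}
    (hd : d ≠ 0) : IsRedClassQ (m * d) q M' A x y := by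
  obtain ⟨f, r₁, r₂, ⟨hf0, D, hDx, hD⟩, h1, h2, h3, h4⟩ := h
  refine ⟨f ^ d, r₁ ^ d, r₂ ^ d, ⟨pow_ne_zero _ hf0, D, hDx, fun v => ?_⟩,
    I2.isRedInf_pow _ A h1 d, isRedZero_pow' h2 d, h3.pow_modulus d hd, h4.pow_modulus d hd⟩
  rw [ord_pow_h296, hD v]
  push_cast
  ring

/-- `𝓕_m ≤ 𝓕_{m d}`. -/
theorem finPartQ_le_mul_h296 (hm : m ≠ 0) (hq : q.Prime) (hqM : ¬ q ∣ M')
    (hA : A.LiesOverPrime q) {d : ℕ} (hd : d ≠ 0) :
    finPartQ m q M' A ≤ finPartQ (m * d) q M' A := fun x hx => by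
  obtain ⟨y, hy⟩ := exists_isRedClassQ hm hq hqM hA hx
  exact (hy.pow_modulus hd).mem_finPartQ

/-- `𝒮_m ≤ 𝒮_{m d}`. -/
theorem splitPartQ_le_mul_h296 (hm : m ≠ 0) (hq : q.Prime) (hqM : ¬ q ∣ M')
    (hA : A.LiesOverPrime q) {d : ℕ} (hd : d ≠ 0) :
    splitPartQ m q M' A ≤ splitPartQ (m * d) q M' A := fun x hx => by
  have h0 := isRedClassQ_zero_of_mem_splitPartQ hq hqM hA hx
  exact AddSubgroup.subset_closure ((h0.pow_modulus hd).mem_splitSetQ hq hqM hA)

end Level

/-! ## The homomorphism -/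

section Hom

variable (m q M' : ℕ) [NeZero M'] [NeZero q] [NeZero (q * M')] (A : ValuationSubring Kbar)

/-- **RED-HOM.**  The reduction homomorphism
`red : 𝓕 = finPartQ m q M' A →+ Pic⁰(F_k) × Pic⁰(F_k)`: it is given by the classes of the
`m`-th roots of the divisors of the two reductions of ANY Kummer generator, its values are killed
by `m`, and its kernel is `𝒮 = splitPartQ m q M' A`. -/
theorem exists_redHom_h296 (hm : m ≠ 0) (hq : q.Prime) (hqM : ¬ q ∣ M')
    (hA : A.LiesOverPrime q) :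
    ∃ red : ↥(finPartQ m q M' A) →+ JZeroC (kA A) M' × JZeroC (kA A) M',
      (∀ x : ↥(finPartQ m q M' A), IsRedClassQ m q M' A (x : JZero (q * M')) (red x)) ∧
      (∀ x : ↥(finPartQ m q M' A), m • red x = 0) ∧
      (∀ x : ↥(finPartQ m q M' A),
        red x = 0 ↔ (x : JZero (q * M')) ∈ splitPartQ m q M' A) := by
  classical
  have hex : ∀ x : ↥(finPartQ m q M' A),
      ∃ y : JZeroC (kA A) M' × JZeroC (kA A) M',
        IsRedClassQ m q M' A (x : JZero (q * M')) y := fun x =>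
    exists_isRedClassQ hm hq hqM hA x.2
  choose φ hφ using hex
  have hadd : ∀ x y : ↥(finPartQ m q M' A), φ (x + y) = φ x + φ y := fun x y =>
    (hφ (x + y)).unique hm hq hqM hA ((hφ x).add (hφ y))
  have hzero : φ 0 = 0 := (hφ 0).unique hm hq hqM hA isRedClassQ_zero
  refine ⟨{ toFun := φ, map_zero' := hzero, map_add' := hadd }, fun x => hφ x,
    fun x => (hφ x).nsmul_eq_zero, fun x => (hφ x).eq_zero_iff hm hq hqM hA⟩

/-- **RED-HOM, counting form** (input `red` of the abstract counts `H357.index_bounds_of_filtration`,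
`H505.count_family505`): values in the `m`-torsion subgroup of `Pic⁰(F_k)²`, kernel inside `𝒮`. -/
theorem exists_redHom_torsion_h296 (hm : m ≠ 0) (hq : q.Prime) (hqM : ¬ q ∣ M')
    (hA : A.LiesOverPrime q) :
    ∃ red : ↥(finPartQ m q M' A) →+ JZeroC (kA A) M' × JZeroC (kA A) M',
      (∀ x : ↥(finPartQ m q M' A),
        (red x).1 ∈ Pic0.torsion (kA A) (modularFunctionFieldFullC (kA A) M') m ∧
        (red x).2 ∈ Pic0.torsion (kA A) (modularFunctionFieldFullC (kA A) M') m) ∧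
      (∀ x : ↥(finPartQ m q M' A), red x = 0 → (x : JZero (q * M')) ∈ splitPartQ m q M' A) ∧
      (∀ x : ↥(finPartQ m q M' A), (x : JZero (q * M')) ∈ splitPartQ m q M' A → red x = 0) := by
  obtain ⟨red, h1, h2, h3⟩ := exists_redHom_h296 m q M' A hm hq hqM hA
  refine ⟨red, fun x => ?_, fun x hx => (h3 x).mp hx, fun x hx => (h3 x).mpr hx⟩
  have hx := h2 x
  have e1 : m • (red x).1 = 0 := congrArg Prod.fst hx
  have e2 : m • (red x).2 = 0 := congrArg Prod.snd hx
  constructor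
  · rw [Pic0.mem_torsion, natCast_zsmul]
    exact e1
  · rw [Pic0.mem_torsion, natCast_zsmul]
    exact e2

end Hom

end Fermat.Agent.S59.LoSqC.H296

end
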