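import Fermat.Agent.S59.LoSqC.H296.RedHom

/-!
# S59 moonshot, cell (C) LO-SQ, W-COUNT sub-leaf RED-HOM, part 3: the tower in the modulus
  (helper296)

Compatibility of `𝓕_m = finPartQ m q M' A`, `𝒮_m = splitPartQ m q M' A` and of the reduction
classes `IsRedClassQ m` when the modulus varies (`m, d ≠ 0`):

* `nsmul_mem_finPartQ_h296`   : `x ∈ 𝓕_{m d}  ⟹  d • x ∈ 𝓕_m`, with reduction classes `d • y`;
* `mem_finPartQ_of_nsmul_h296`: `x ∈ 𝓕_{m d}`, `d • x = 0  ⟹  x ∈ 𝓕_d`;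
* `nsmul_mem_splitPartQ_h296`, `mem_splitPartQ_of_nsmul_h296` : the same for `𝒮`;
* `finPartQ_le_torsion_h296`  : `𝓕_m ⊆ J₀(qM')[m]`.

Family form for `m = p ^ n` (the hypotheses `hF`, `hS`, `hFc`, `hFk`, `hSc`, `hSk` of the abstract
count `H505.count_family505`): `redTower_h296`.
-/

set_option autoImplicit false
set_option linter.unusedSectionVars false
set_option linter.unusedVariables false
set_option linter.style.haveILetI false
set_option synthInstance.maxHeartbeats 400000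
set_option maxHeartbeats 1000000

noncomputable section

namespace Fermat.Agent.S59.LoSqC.H296

open AlgebraicCurve ModularCurve HahnSeries
open Fermat.Agent.S24 Fermat.Agent.A2.H708 Fermat.Agent.A2.H528
open Fermat.Agent.Ribet.Spec Fermat.Agent.Ribet.H944.Wall Fermat.Agent.Ribet.H884
open Fermat.Agent.Ribet.H158.WallQ
open Fermat.Agent.Ribet.H944
open Fermat.Agent.Ribet.H708.Q3Pow

section Tower

variable {m d q M' : ℕ} [NeZero M'] [NeZero q] [NeZero (q * M')] {A : ValuationSubring Kbar}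

/-- `𝓕_m ⊆ J₀(qM')[m]`. -/
theorem finPartQ_le_torsion_h296 (hm : m ≠ 0) (hq : q.Prime) (hqM : ¬ q ∣ M')
    (hA : A.LiesOverPrime q) {x : JZero (q * M')} (hx : x ∈ finPartQ m q M' A) :
    m • x = 0 := by
  obtain ⟨y, hy⟩ := exists_isRedClassQ hm hq hqM hA hx
  exact hy.nsmul_class_eq_zero

theorem coe_nsmul_apply_h296 {K F : Type*} [Field K] [Field F] [Algebra K F] (d : ℕ)
    (E : Divisor.degZero (K := K) (F := F)) (Q : Place K F) :
    ((d • E : Divisor.degZero (K := K) (F := F)) : Divisor K F) Q =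
      (d : ℤ) * (E : Divisor K F) Q := by
  rw [AddSubgroup.coe_nsmul, Finsupp.smul_apply, nsmul_eq_mul]

theorem IsRootClass.nsmul_of_mul {k : Type} [Field k] {r : LaurentSeries k}
    {y : JZeroC k M'} (h : IsRootClass (m * d) M' r y) : IsRootClass m M' r (d • y) := by
  obtain ⟨a, E, ha, ha0, hE, rfl⟩ := h
  refine ⟨a, d • E, ha, ha0, fun Q => ?_, rfl⟩
  rw [hE Q, coe_nsmul_apply_h296]
  push_cast
  ring

/-- Multiplication by `d` maps the reduction classes for `m d` to the reduction classes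
for `m`. -/
theorem IsRedClassQ.nsmul_of_mul {x : JZero (q * M')}
    {y : JZeroC (kA A) M' × JZeroC (kA A) M'} (h : IsRedClassQ (m * d) q M' A x y) :
    IsRedClassQ m q M' A (d • x) (d • y) := by
  obtain ⟨f, r₁, r₂, ⟨hf0, D, hDx, hD⟩, h1, h2, h3, h4⟩ := h
  refine ⟨f, r₁, r₂, ⟨hf0, d • D, ?_, fun v => ?_⟩, h1, h2, h3.nsmul_of_mul, h4.nsmul_of_mul⟩
  · rw [← hDx]
    rfl
  · rw [hD v, coe_nsmul_apply_h296]
    push_cast
    ring

/-- `x ∈ 𝓕_{m d} ⟹ d • x ∈ 𝓕_m`. -/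
theorem nsmul_mem_finPartQ_h296 (hm : m ≠ 0) (hd : d ≠ 0) (hq : q.Prime) (hqM : ¬ q ∣ M')
    (hA : A.LiesOverPrime q) {x : JZero (q * M')} (hx : x ∈ finPartQ (m * d) q M' A) :
    d • x ∈ finPartQ m q M' A := by
  obtain ⟨y, hy⟩ := exists_isRedClassQ (Nat.mul_ne_zero hm hd) hq hqM hA hx
  exact hy.nsmul_of_mul.mem_finPartQ

/-- `x ∈ 𝒮_{m d} ⟹ d • x ∈ 𝒮_m`. -/
theorem nsmul_mem_splitPartQ_h296 (hm : m ≠ 0) (hd : d ≠ 0) (hq : q.Prime) (hqM : ¬ q ∣ M')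
    (hA : A.LiesOverPrime q) {x : JZero (q * M')} (hx : x ∈ splitPartQ (m * d) q M' A) :
    d • x ∈ splitPartQ m q M' A := by
  have h0 := (isRedClassQ_zero_of_mem_splitPartQ hq hqM hA hx).nsmul_of_mul
  rw [smul_zero] at h0
  exact AddSubgroup.subset_closure (h0.mem_splitSetQ hq hqM hA)

/-- If `F₁ = c · G ^ m` and the reduction of `F₁` has `m d`-divisible divisor, then the reduction
of `G` has `d`-divisible divisor. -/
theorem pDiv_root_of_factor (hm : m ≠ 0) (hq : q.Prime) (hA : A.LiesOverPrime q)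
    {F₁ G : FF (q * M')} {c : Kbar} (hc : c ≠ 0)
    (hF : F₁ = algebraMap Kbar (FF (q * M')) c * G ^ m)
    {r g : LaurentSeries (kA A)} (hr : IsRedInf (q * M') A F₁ r)
    (hg : IsRedInf (q * M') A G g) (hgF : g ∈ modularFunctionFieldFullC (kA A) M')
    (hP : PDivSeries (m * d) M' r) : PDivSeries d M' g := by
  have h1 : IsRedInf (q * M') A F₁ (1 * g ^ m) := by
    rw [hF]
    exact I2.isRedInf_mul _ A (I2.isRedInf_const _ A hc) (I2.isRedInf_pow _ A hg m)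
  obtain ⟨-, u, hu, hr'⟩ := Fermat.Agent.Ribet.H997.redUnique q (q * M') hq A hA F₁ _ r h1 hr
  have hg0 : g ≠ 0 := (I2.isRedInf_ne_zero _ A hg).2
  obtain ⟨a, ha, ha0, hdiv⟩ := hP
  have hk0 : (⟨g, hgF⟩ : modularFunctionFieldFullC (kA A) M') ≠ 0 := fun e =>
    hg0 (congrArg Subtype.val e)
  have huF : algebraMap (kA A) (modularFunctionFieldFullC (kA A) M') u ≠ 0 := fun h0 =>
    hu (by simpa using h0)
  have hae : a = algebraMap (kA A) (modularFunctionFieldFullC (kA A) M') u *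
      (⟨g, hgF⟩ : modularFunctionFieldFullC (kA A) M') ^ m := by
    apply Subtype.ext
    show (a : LaurentSeries (kA A)) =
      ((algebraMap (kA A) (modularFunctionFieldFullC (kA A) M') u :
        modularFunctionFieldFullC (kA A) M') : LaurentSeries (kA A)) * g ^ m
    rw [coe_const_h296, ha, hr', one_mul]
  refine ⟨⟨g, hgF⟩, rfl, hk0, fun Q => ?_⟩
  have h2 := hdiv Q
  rw [hae, Q.ord_mul huF (pow_ne_zero _ hk0), ord_const_h296, zero_add, ord_pow_h296] at h2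
  have hm' : (m : ℤ) ≠ 0 := by exact_mod_cast hm
  have h3 : ((m : ℤ) * (d : ℤ)) ∣ (m : ℤ) * Q.ord (⟨g, hgF⟩ : modularFunctionFieldFullC (kA A) M') := by
    have e : ((m * d : ℕ) : ℤ) = (m : ℤ) * (d : ℤ) := by push_cast; ring
    rw [← e]
    exact h2
  exact (mul_dvd_mul_iff_left hm').mp h3

/-- `x ∈ 𝓕_{m d}`, `d • x = 0 ⟹ x ∈ 𝓕_d`. -/
theorem mem_finPartQ_of_nsmul_h296 (hm : m ≠ 0) (hd : d ≠ 0) (hq : q.Prime)
    (hqM : ¬ q ∣ M') (hA : A.LiesOverPrime q) {x : JZero (q * M')}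
    (hx : x ∈ finPartQ (m * d) q M' A) (hdx : d • x = 0) : x ∈ finPartQ d q M' A := by
  obtain ⟨f, ⟨hf0, D, rfl, hD⟩, r₁, r₂, h1, h2, h3, h4⟩ := mem_finSetQ_of_mem_finPartQ hx
  -- `d · D` is principal
  have hcl : (QuotientAddGroup.mk (d • D) : Pic0 Kbar (FF (q * M'))) = 0 := hdx
  have hmem := (QuotientAddGroup.eq_zero_iff (d • D)).mp hcl
  rw [AddSubgroup.mem_addSubgroupOf] at hmem
  obtain ⟨g, hg0, hg⟩ := hmem
  have hgD : ∀ v : Place Kbar (FF (q * M')),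
      v.ord g = (d : ℤ) * (D : Divisor Kbar (FF (q * M'))) v := fun v => by
    rw [← hg v]
    simp
  have hgK : IsKummerGen (q * M') d g (Pic0.mk D) := ⟨hg0, D, rfl, hgD⟩
  -- `f = c · g ^ m`
  have hgm0 : g ^ m ≠ 0 := pow_ne_zero _ hg0
  have hu0 : f * (g ^ m)⁻¹ ≠ 0 := mul_ne_zero hf0 (inv_ne_zero hgm0)
  obtain ⟨c, hc⟩ := Fermat.Agent.Ribet.H801.constOfOrdZero_bar (q * M') _ hu0 (fun v => by
    rw [v.ord_mul hf0 (inv_ne_zero hgm0), v.ord_inv, ord_pow_h296, hD v, hgD v]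
    push_cast
    ring)
  have hc0 : c ≠ 0 := by
    rintro rfl
    rw [map_zero] at hc
    exact hu0 hc
  have hfe : f = algebraMap Kbar (FF (q * M')) c * g ^ m := by
    rw [← hc]
    field_simp
  -- reductions of `g`
  obtain ⟨⟨s₁, hs1⟩, ⟨s₂, hs2⟩⟩ :=
    Fermat.Agent.Ribet.H997.redExists q (q * M') hq A hA g hg0
  obtain ⟨k₁, hk1⟩ :=
    Fermat.Agent.Ribet.H997.redField q M' hq hqM A hA g s₁ (Or.inl hs1)
  obtain ⟨k₂, hk2⟩ :=
    Fermat.Agent.Ribet.H997.redField q M' hq hqM A hA g s₂ (Or.inr hs2)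
  have hfw : wF (q * M') f = algebraMap Kbar (FF (q * M')) c * (wF (q * M') g) ^ m := by
    rw [hfe, map_mul, map_pow, AlgEquiv.commutes]
  refine AddSubgroup.subset_closure ⟨g, hgK, s₁, s₂, hs1, hs2, ?_, ?_⟩
  · exact pDiv_root_of_factor hm hq hA hc0 hfe h1 hs1 (hk1 ▸ k₁.2) h3
  · exact pDiv_root_of_factor hm hq hA hc0 hfw h2 hs2 (hk2 ▸ k₂.2) h4

/-- `x ∈ 𝒮_{m d}`, `d • x = 0 ⟹ x ∈ 𝒮_d`. -/
theorem mem_splitPartQ_of_nsmul_h296 (hm : m ≠ 0) (hd : d ≠ 0) (hq : q.Prime)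
    (hqM : ¬ q ∣ M') (hA : A.LiesOverPrime q) {x : JZero (q * M')}
    (hx : x ∈ splitPartQ (m * d) q M' A) (hdx : d • x = 0) : x ∈ splitPartQ d q M' A := by
  have hmd : m * d ≠ 0 := Nat.mul_ne_zero hm hd
  have hxF : x ∈ finPartQ d q M' A :=
    mem_finPartQ_of_nsmul_h296 hm hd hq hqM hA (splitPartQ_le_finPartQ_h296 hq hqM hA hx) hdx
  obtain ⟨y, hy⟩ := exists_isRedClassQ hd hq hqM hA hxF
  have hy' : IsRedClassQ (m * d) q M' A x y := by
    have := hy.pow_modulus hm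
    rwa [mul_comm] at this
  have hy0 : y = 0 := (hy'.eq_zero_iff hmd hq hqM hA).mpr hx
  exact (hy.eq_zero_iff hd hq hqM hA).mp hy0

end Tower

/-! ## Family form, `m = p ^ n` -/

section Family

variable (p q M' : ℕ) [NeZero M'] [NeZero q] [NeZero (q * M')] (A : ValuationSubring Kbar)

/-- **The towers `𝓕_n = finPartQ (p ^ n)`, `𝒮_n = splitPartQ (p ^ n)`** satisfy the compatibility
hypotheses of the abstract count (`H505.count_family505`: `hF`, `hS`, `hFc`, `hFk`, `hSc`, `hSk`;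
`𝒮_n ≤ 𝓕_n`), for every `p ≠ 0` (no primality, no `5 ≤ p`). -/
theorem redTower_h296 (hp : p ≠ 0) (hq : q.Prime) (hqM : ¬ q ∣ M') (hA : A.LiesOverPrime q) :
    (∀ n : ℕ, splitPartQ (p ^ n) q M' A ≤ finPartQ (p ^ n) q M' A) ∧
    (∀ (n : ℕ) (x : JZero (q * M')), x ∈ finPartQ (p ^ n) q M' A → (p ^ n) • x = 0) ∧
    (∀ (n : ℕ) (x : JZero (q * M')), x ∈ finPartQ (p ^ (n + 1)) q M' A →
      p • x ∈ finPartQ (p ^ n) q M' A) ∧
    (∀ (n : ℕ) (x : JZero (q * M')), x ∈ finPartQ (p ^ (n + 1)) q M' A → p • x = 0 →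
      x ∈ finPartQ (p ^ 1) q M' A) ∧
    (∀ (n : ℕ) (x : JZero (q * M')), x ∈ splitPartQ (p ^ (n + 1)) q M' A →
      p • x ∈ splitPartQ (p ^ n) q M' A) ∧
    (∀ (n : ℕ) (x : JZero (q * M')), x ∈ splitPartQ (p ^ (n + 1)) q M' A → p • x = 0 →
      x ∈ splitPartQ (p ^ 1) q M' A) := by
  have hpn : ∀ n : ℕ, p ^ n ≠ 0 := fun n => pow_ne_zero n hp
  refine ⟨fun n => splitPartQ_le_finPartQ_h296 hq hqM hA,
    fun n x hx => finPartQ_le_torsion_h296 (hpn n) hq hqM hA hx,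
    fun n x hx => ?_, fun n x hx hpx => ?_, fun n x hx => ?_, fun n x hx hpx => ?_⟩
  · rw [pow_succ] at hx
    exact nsmul_mem_finPartQ_h296 (hpn n) hp hq hqM hA hx
  · rw [pow_succ] at hx
    rw [pow_one]
    exact mem_finPartQ_of_nsmul_h296 (hpn n) hp hq hqM hA hx hpx
  · rw [pow_succ] at hx
    exact nsmul_mem_splitPartQ_h296 (hpn n) hp hq hqM hA hx
  · rw [pow_succ] at hx
    rw [pow_one]
    exact mem_splitPartQ_of_nsmul_h296 (hpn n) hp hq hqM hA hx hpx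

end Family

end Fermat.Agent.S59.LoSqC.H296

end
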