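import Fermat.Agent.Ribet.H708.Q3Pow
import Fermat.Agent.S37.H868.FullC
import Fermat.Agent.S18.H144.ConstFk

/-!
# S59 moonshot, cell (C) LO-SQ, W-COUNT sub-leaf RED-HOM, part 1: roots of divisors (helper296)

Abstract function field `F / K` (Prelude vocabulary `Place`, `Divisor`, `Pic0`):

* `IsRootDiv m h E` : `div h = m · E`, `E` a divisor of degree `0`;
* existence (`exists_isRootDiv`), multiplicativity, the class `Pic0.mk E` only depends on `h` up to
  constants and `m`-th powers (`IsRootDiv.mk_eq`), is killed by `m` (`IsRootDiv.nsmul_mk`), and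
  vanishes iff `h = c · u ^ m` (`IsRootDiv.exists_const_mul_pow`, `IsRootDiv.mk_eq_zero`).

Concrete: `F_k = modularFunctionFieldFullC k M'`, series `r ∈ k((t))`:

* `IsRootClass m M' r y` : `r ∈ F_k`, `r ≠ 0`, `div r = m · E`, `y = [E] ∈ Pic⁰(F_k) = JZeroC k M'`.
  It is defined exactly for the `H884.PDivSeries m M' r`, and `y = 0` iff
  `H158.WallQ.PPowSeries m M' r`.

No hypothesis on `m` except `m ≠ 0`; no hypothesis on the characteristic except the one needed for
`HasPrincipalDivisors` / constants (`q ∤ M'`).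
-/

set_option autoImplicit false
set_option linter.unusedSectionVars false
set_option linter.unusedVariables false
set_option linter.style.haveILetI false
set_option synthInstance.maxHeartbeats 400000
set_option maxHeartbeats 1000000

noncomputable section

namespace Fermat.Agent.S59.LoSqC.H296

open AlgebraicCurve ModularCurve HahnSeries
open Fermat.Agent.Ribet.H884 Fermat.Agent.Ribet.H158.WallQ

/-! ## Abstract function fields -/

section Abstract

variable {K F : Type*} [Field K] [Field F] [Algebra K F]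

theorem ord_pow_h296 (Q : Place K F) (y : F) (m : ℕ) : Q.ord (y ^ m) = (m : ℤ) * Q.ord y := by
  rw [← zpow_natCast, Q.ord_zpow]

theorem ord_const_h296 (Q : Place K F) (c : K) : Q.ord (algebraMap K F c) = 0 :=
  Fermat.Agent.A2.H129.ord_algebraMap_eq_zero Q c

/-- `E` is the `m`-th root of the divisor of `h`: `div h = m · E`. -/
def IsRootDiv (m : ℕ) (h : F) (E : Divisor.degZero (K := K) (F := F)) : Prop :=
  ∀ Q : Place K F, Q.ord h = (m : ℤ) * (E : Divisor K F) Q

/-- A function all of whose orders are divisible by `m` has a root divisor. -/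
theorem exists_isRootDiv [HasPrincipalDivisors K F] {m : ℕ} (hm : m ≠ 0) {h : F}
    (h0 : h ≠ 0) (hdiv : ∀ Q : Place K F, (m : ℤ) ∣ Q.ord h) :
    ∃ E : Divisor.degZero (K := K) (F := F), IsRootDiv m h E := by
  obtain ⟨D, hD, hdeg⟩ := HasPrincipalDivisors.exists_divisor (K := K) h h0
  let E₀ : Divisor K F := D.mapRange (fun n => n / (m : ℤ)) (by simp)
  have hE : ∀ Q, (m : ℤ) * E₀ Q = D Q := fun Q => by
    show (m : ℤ) * (D.mapRange (fun n => n / (m : ℤ)) (by simp)) Q = D Q
    rw [Finsupp.mapRange_apply]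
    exact Int.mul_ediv_cancel' (by rw [hD Q]; exact hdiv Q)
  have hpE : (m : ℤ) • E₀ = D := by
    ext Q
    rw [Finsupp.smul_apply, smul_eq_mul, hE]
  have hdeg0 : Divisor.degree E₀ = 0 := by
    have h1 := congrArg Divisor.degree hpE
    rw [map_zsmul, hdeg, smul_eq_mul] at h1
    rcases mul_eq_zero.mp h1 with h2 | h2
    · exact absurd (by exact_mod_cast h2) hm
    · exact h2
  refine ⟨⟨E₀, hdeg0⟩, fun Q => ?_⟩
  show Q.ord h = (m : ℤ) * E₀ Q
  rw [hE Q, hD Q]

theorem isRootDiv_one (m : ℕ) :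
    IsRootDiv m (1 : F) (0 : Divisor.degZero (K := K) (F := F)) := by
  intro Q
  rw [Place.ord_one]
  simp

theorem IsRootDiv.mul {m : ℕ} {h h' : F} {E E' : Divisor.degZero (K := K) (F := F)}
    (h0 : h ≠ 0) (h0' : h' ≠ 0) (hE : IsRootDiv m h E) (hE' : IsRootDiv m h' E') :
    IsRootDiv m (h * h') (E + E') := by
  intro Q
  rw [Q.ord_mul h0 h0', hE Q, hE' Q]
  simp [mul_add]

theorem IsRootDiv.inv {m : ℕ} {h : F} {E : Divisor.degZero (K := K) (F := F)}
    (hE : IsRootDiv m h E) : IsRootDiv m h⁻¹ (-E) := by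
  intro Q
  rw [Q.ord_inv, hE Q]
  simp

/-- The root divisor of `c · u ^ m` is `div u`. -/
theorem isRootDiv_const_mul_pow [HasPrincipalDivisors K F] (m : ℕ) {c : K} (hc : c ≠ 0)
    {u : F} (hu : u ≠ 0) :
    ∃ E : Divisor.degZero (K := K) (F := F),
      IsRootDiv m (algebraMap K F c * u ^ m) E ∧ Pic0.mk E = 0 := by
  obtain ⟨D, hD, hdeg⟩ := HasPrincipalDivisors.exists_divisor (K := K) u hu
  have hcF : algebraMap K F c ≠ 0 := fun h0 => hc (by simpa using h0)
  refine ⟨⟨D, hdeg⟩, fun Q => ?_, ?_⟩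
  · rw [Q.ord_mul hcF (pow_ne_zero _ hu), ord_const_h296, zero_add, ord_pow_h296]
    show (m : ℤ) * Q.ord u = (m : ℤ) * D Q
    rw [hD Q]
  · show (QuotientAddGroup.mk (⟨D, hdeg⟩ : Divisor.degZero (K := K) (F := F)) : Pic0 K F) = 0
    refine (QuotientAddGroup.eq_zero_iff _).mpr ?_
    rw [AddSubgroup.mem_addSubgroupOf]
    exact ⟨u, hu, hD⟩

/-- The class of the root divisor only depends on the function up to constants and `m`-th
powers. -/
theorem IsRootDiv.mk_eq {m : ℕ} (hm : m ≠ 0) {h h' u : F} {c : K} (hc : c ≠ 0) (hu : u ≠ 0)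
    (h0' : h' ≠ 0) (he : h = algebraMap K F c * h' * u ^ m)
    {E E' : Divisor.degZero (K := K) (F := F)} (hE : IsRootDiv m h E)
    (hE' : IsRootDiv m h' E') : (Pic0.mk E : Pic0 K F) = Pic0.mk E' := by
  have hcF : algebraMap K F c ≠ 0 := fun h0 => hc (by simpa using h0)
  have hm' : (m : ℤ) ≠ 0 := by exact_mod_cast hm
  have hEu : ∀ Q : Place K F,
      (E : Divisor K F) Q = (E' : Divisor K F) Q + Q.ord u := fun Q => by
    have h1 := hE Q
    rw [he, Q.ord_mul (mul_ne_zero hcF h0') (pow_ne_zero _ hu), Q.ord_mul hcF h0',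
      ord_const_h296, zero_add, ord_pow_h296, hE' Q, ← mul_add] at h1
    exact (mul_left_cancel₀ hm' h1).symm
  show (QuotientAddGroup.mk E : Pic0 K F) = QuotientAddGroup.mk E'
  refine QuotientAddGroup.eq.mpr ?_
  rw [AddSubgroup.mem_addSubgroupOf]
  refine ⟨u⁻¹, inv_ne_zero hu, fun Q => ?_⟩
  rw [Q.ord_inv]
  have h2 : ((-E + E' : Divisor.degZero (K := K) (F := F)) : Divisor K F) Q =
      -(E : Divisor K F) Q + (E' : Divisor K F) Q := by
    simp
  rw [h2, hEu Q]
  ring

/-- Functions whose root divisors have the same class differ by a constant and an `m`-th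
power. -/
theorem IsRootDiv.exists_factor
    (hconst : ∀ u : F, u ≠ 0 → (∀ v : Place K F, v.ord u = 0) → ∃ c : K, u = algebraMap K F c)
    {m : ℕ} {h h' : F} (h0 : h ≠ 0) (h0' : h' ≠ 0)
    {E E' : Divisor.degZero (K := K) (F := F)} (hE : IsRootDiv m h E)
    (hE' : IsRootDiv m h' E') (hcl : (Pic0.mk E : Pic0 K F) = Pic0.mk E') :
    ∃ (c : K) (u : F), c ≠ 0 ∧ u ≠ 0 ∧ h = algebraMap K F c * h' * u ^ m := by
  have hmem : (-E + E' : Divisor.degZero (K := K) (F := F)) ∈
      (Divisor.principal (K := K) (F := F)).addSubgroupOf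
        (Divisor.degZero (K := K) (F := F)) := QuotientAddGroup.eq.mp hcl
  rw [AddSubgroup.mem_addSubgroupOf] at hmem
  obtain ⟨t, ht0, ht⟩ := hmem
  have ht' : ∀ Q : Place K F, Q.ord t = -(E : Divisor K F) Q + (E' : Divisor K F) Q :=
    fun Q => by
      rw [← ht Q]
      simp
  have hw0 : h * (h' * (t⁻¹) ^ m)⁻¹ ≠ 0 :=
    mul_ne_zero h0 (inv_ne_zero (mul_ne_zero h0' (pow_ne_zero _ (inv_ne_zero ht0))))
  obtain ⟨c, hc⟩ := hconst _ hw0 (fun Q => by
    rw [Q.ord_mul h0 (inv_ne_zero (mul_ne_zero h0' (pow_ne_zero _ (inv_ne_zero ht0)))),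
      Q.ord_inv, Q.ord_mul h0' (pow_ne_zero _ (inv_ne_zero ht0)),
      ord_pow_h296, Q.ord_inv, hE Q, hE' Q, ht']
    ring)
  refine ⟨c, t⁻¹, ?_, inv_ne_zero ht0, ?_⟩
  · rintro rfl
    rw [map_zero] at hc
    exact hw0 hc
  · rw [← hc]
    field_simp

/-- Uniqueness of the root divisor. -/
theorem IsRootDiv.unique {m : ℕ} (hm : m ≠ 0) {h : F}
    {E E' : Divisor.degZero (K := K) (F := F)} (hE : IsRootDiv m h E)
    (hE' : IsRootDiv m h E') : E = E' := by
  have hm' : (m : ℤ) ≠ 0 := by exact_mod_cast hm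
  apply Subtype.ext
  ext Q
  exact mul_left_cancel₀ hm' ((hE Q).symm.trans (hE' Q))

/-- The class of a root divisor is killed by `m`. -/
theorem IsRootDiv.nsmul_mk {m : ℕ} {h : F} (h0 : h ≠ 0)
    {E : Divisor.degZero (K := K) (F := F)} (hE : IsRootDiv m h E) :
    m • (Pic0.mk E : Pic0 K F) = 0 := by
  have e : m • (Pic0.mk E : Pic0 K F) = Pic0.mk (m • E) := rfl
  rw [e]
  show (QuotientAddGroup.mk (m • E) : Pic0 K F) = 0
  refine (QuotientAddGroup.eq_zero_iff (m • E)).mpr ?_
  rw [AddSubgroup.mem_addSubgroupOf]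
  refine ⟨h, h0, fun Q => ?_⟩
  rw [hE Q]
  simp

/-- A function whose root divisor is principal is a constant times an `m`-th power. -/
theorem IsRootDiv.exists_const_mul_pow
    (hconst : ∀ u : F, u ≠ 0 → (∀ v : Place K F, v.ord u = 0) → ∃ c : K, u = algebraMap K F c)
    {m : ℕ} {h : F} (h0 : h ≠ 0) {E : Divisor.degZero (K := K) (F := F)}
    (hE : IsRootDiv m h E) (hcl : (Pic0.mk E : Pic0 K F) = 0) :
    ∃ (c : K) (u : F), c ≠ 0 ∧ u ≠ 0 ∧ h = algebraMap K F c * u ^ m := by
  have hmem : E ∈ (Divisor.principal (K := K) (F := F)).addSubgroupOf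
      (Divisor.degZero (K := K) (F := F)) := (QuotientAddGroup.eq_zero_iff E).mp hcl
  rw [AddSubgroup.mem_addSubgroupOf] at hmem
  obtain ⟨t, ht0, ht⟩ := hmem
  have hw0 : h * (t ^ m)⁻¹ ≠ 0 := mul_ne_zero h0 (inv_ne_zero (pow_ne_zero _ ht0))
  obtain ⟨c, hc⟩ := hconst _ hw0 (fun Q => by
    rw [Q.ord_mul h0 (inv_ne_zero (pow_ne_zero _ ht0)), Q.ord_inv, ord_pow_h296, hE Q, ← ht Q]
    ring)
  refine ⟨c, t, ?_, ht0, ?_⟩
  · rintro rfl
    rw [map_zero] at hc
    exact hw0 hc
  · rw [← hc]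
    field_simp

/-- The root divisor of a constant times an `m`-th power is principal. -/
theorem IsRootDiv.mk_eq_zero {m : ℕ} (hm : m ≠ 0) {h u : F} {c : K} (hc : c ≠ 0)
    (hu : u ≠ 0) (he : h = algebraMap K F c * u ^ m)
    {E : Divisor.degZero (K := K) (F := F)} (hE : IsRootDiv m h E) :
    (Pic0.mk E : Pic0 K F) = 0 := by
  have h1 : (Pic0.mk E : Pic0 K F) = Pic0.mk (0 : Divisor.degZero (K := K) (F := F)) :=
    IsRootDiv.mk_eq hm hc hu (one_ne_zero (α := F)) (by rw [he, mul_one]) hE (isRootDiv_one m)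
  rw [h1]
  rfl

end Abstract

/-! ## Series of `F_k = k(X₀(M'))` -/

section Series

variable {m M' : ℕ} [NeZero M'] {k : Type} [Field k]

theorem coe_const_h296 (c : k) :
    ((algebraMap k (modularFunctionFieldFullC k M') c : modularFunctionFieldFullC k M') :
      LaurentSeries k) = HahnSeries.C c := by
  have h0 : ((algebraMap k (modularFunctionFieldFullC k M') c :
      modularFunctionFieldFullC k M') : LaurentSeries k) =
      algebraMap k (LaurentSeries k) c := rfl
  have h1 : algebraMap k (PowerSeries k) c = PowerSeries.C c := by simp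
  rw [h0, HahnSeries.algebraMap_apply', h1, HahnSeries.ofPowerSeries_C]

/-- `y ∈ Pic⁰(F_k)` is the class of the `m`-th root of the divisor of the series `r ∈ F_k`. -/
def IsRootClass (m M' : ℕ) [NeZero M'] {k : Type} [Field k] (r : LaurentSeries k)
    (y : JZeroC k M') : Prop :=
  ∃ (h : modularFunctionFieldFullC k M')
    (E : Divisor.degZero (K := k) (F := modularFunctionFieldFullC k M')),
    (h : LaurentSeries k) = r ∧ h ≠ 0 ∧ IsRootDiv m h E ∧ Pic0.mk E = y

theorem IsRootClass.pDiv {r : LaurentSeries k} {y : JZeroC k M'}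
    (h : IsRootClass m M' r y) : PDivSeries m M' r := by
  obtain ⟨g, E, hg, hg0, hE, -⟩ := h
  exact ⟨g, hg, hg0, fun Q => ⟨_, hE Q⟩⟩

theorem IsRootClass.ne_zero {r : LaurentSeries k} {y : JZeroC k M'}
    (h : IsRootClass m M' r y) : r ≠ 0 := by
  obtain ⟨g, E, hg, hg0, -, -⟩ := h
  rintro rfl
  exact hg0 (Subtype.ext hg)

theorem exists_isRootClass [HasPrincipalDivisors k (modularFunctionFieldFullC k M')]
    (hm : m ≠ 0) {r : LaurentSeries k} (h : PDivSeries m M' r) :
    ∃ y : JZeroC k M', IsRootClass m M' r y := by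
  obtain ⟨g, hg, hg0, hdiv⟩ := h
  obtain ⟨E, hE⟩ := exists_isRootDiv (K := k) hm hg0 hdiv
  exact ⟨Pic0.mk E, g, E, hg, hg0, hE, rfl⟩

theorem isRootClass_one (m M' : ℕ) [NeZero M'] (k : Type) [Field k] :
    IsRootClass m M' (1 : LaurentSeries k) (0 : JZeroC k M') :=
  ⟨1, 0, rfl, one_ne_zero, isRootDiv_one m, rfl⟩

theorem IsRootClass.mul {r r' : LaurentSeries k} {y y' : JZeroC k M'}
    (h : IsRootClass m M' r y) (h' : IsRootClass m M' r' y') :
    IsRootClass m M' (r * r') (y + y') := by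
  obtain ⟨g, E, rfl, hg0, hE, rfl⟩ := h
  obtain ⟨g', E', rfl, hg0', hE', rfl⟩ := h'
  exact ⟨g * g', E + E', rfl, mul_ne_zero hg0 hg0', hE.mul hg0 hg0' hE', rfl⟩

theorem IsRootClass.inv {r : LaurentSeries k} {y : JZeroC k M'}
    (h : IsRootClass m M' r y) : IsRootClass m M' r⁻¹ (-y) := by
  obtain ⟨g, E, rfl, hg0, hE, rfl⟩ := h
  exact ⟨g⁻¹, -E, rfl, inv_ne_zero hg0, hE.inv, rfl⟩

/-- The class is killed by `m`. -/
theorem IsRootClass.nsmul_eq_zero {r : LaurentSeries k} {y : JZeroC k M'}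
    (h : IsRootClass m M' r y) : m • y = 0 := by
  obtain ⟨g, E, -, hg0, hE, rfl⟩ := h
  exact hE.nsmul_mk hg0

/-- **Independence**: series which differ by a constant and an `m`-th power of `F_k` have the same
class. -/
theorem IsRootClass.eq_of_factor (hm : m ≠ 0) {r r' g : LaurentSeries k} {c : k}
    {y y' : JZeroC k M'} (h : IsRootClass m M' r y) (h' : IsRootClass m M' r' y')
    (hc : c ≠ 0) (hg : g ∈ modularFunctionFieldFullC k M') (hg0 : g ≠ 0)
    (he : r = HahnSeries.C c * r' * g ^ m) : y = y' := by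
  obtain ⟨a, E, ha, ha0, hE, rfl⟩ := h
  obtain ⟨a', E', ha', ha0', hE', rfl⟩ := h'
  have hu0 : (⟨g, hg⟩ : modularFunctionFieldFullC k M') ≠ 0 := fun e =>
    hg0 (congrArg Subtype.val e)
  refine IsRootDiv.mk_eq (K := k) hm hc hu0 ha0' ?_ hE hE'
  apply Subtype.ext
  show (a : LaurentSeries k) =
    ((algebraMap k (modularFunctionFieldFullC k M') c : modularFunctionFieldFullC k M') :
      LaurentSeries k) * (a' : LaurentSeries k) * g ^ m
  rw [coe_const_h296, ha, ha', he]

/-- **Converse of independence**: series with the same class differ by a constant and an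
`m`-th power of `F_k`. -/
theorem IsRootClass.exists_factor
    (hconst : ∀ u : modularFunctionFieldFullC k M', u ≠ 0 →
      (∀ v : Place k (modularFunctionFieldFullC k M'), v.ord u = 0) →
      ∃ c : k, u = algebraMap k (modularFunctionFieldFullC k M') c)
    {r r' : LaurentSeries k} {y : JZeroC k M'} (h : IsRootClass m M' r y)
    (h' : IsRootClass m M' r' y) :
    ∃ (c : k) (g : modularFunctionFieldFullC k M'), c ≠ 0 ∧ g ≠ 0 ∧
      r = HahnSeries.C c * r' * (g : LaurentSeries k) ^ m := by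
  obtain ⟨a, E, ha, ha0, hE, hy⟩ := h
  obtain ⟨a', E', ha', ha0', hE', hy'⟩ := h'
  obtain ⟨c, u, hc, hu, he⟩ := hE.exists_factor hconst ha0 ha0' hE' (hy.trans hy'.symm)
  refine ⟨c, u, hc, hu, ?_⟩
  rw [← ha, ← ha', he]
  show ((algebraMap k (modularFunctionFieldFullC k M') c : modularFunctionFieldFullC k M') :
      LaurentSeries k) * (a' : LaurentSeries k) * (u : LaurentSeries k) ^ m = _
  rw [coe_const_h296]

/-- **Uniqueness** of the class of a series. -/
theorem IsRootClass.unique (hm : m ≠ 0) {r : LaurentSeries k} {y y' : JZeroC k M'}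
    (h : IsRootClass m M' r y) (h' : IsRootClass m M' r y') : y = y' := by
  refine h.eq_of_factor hm h' (one_ne_zero (α := k)) (g := 1) (one_mem _) one_ne_zero ?_
  rw [map_one, one_mul, one_pow, mul_one]

/-- The class of a series vanishes only for constants times `m`-th powers of `F_k`. -/
theorem IsRootClass.pPow
    (hconst : ∀ u : modularFunctionFieldFullC k M', u ≠ 0 →
      (∀ v : Place k (modularFunctionFieldFullC k M'), v.ord u = 0) →
      ∃ c : k, u = algebraMap k (modularFunctionFieldFullC k M') c)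
    {r : LaurentSeries k} (h : IsRootClass m M' r (0 : JZeroC k M')) : PPowSeries m M' r := by
  obtain ⟨a, E, ha, ha0, hE, hy⟩ := h
  obtain ⟨c, u, hc, hu, he⟩ := hE.exists_const_mul_pow hconst ha0 hy
  refine ⟨c, u, hc, hu, ?_⟩
  rw [← ha, he]
  show ((algebraMap k (modularFunctionFieldFullC k M') c : modularFunctionFieldFullC k M') :
      LaurentSeries k) * (u : LaurentSeries k) ^ m = _
  rw [coe_const_h296]

/-- A constant times an `m`-th power of `F_k` has class `0`. -/
theorem isRootClass_zero_of_pPow [HasPrincipalDivisors k (modularFunctionFieldFullC k M')]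
    {r : LaurentSeries k} (h : PPowSeries m M' r) :
    IsRootClass m M' r (0 : JZeroC k M') := by
  obtain ⟨c, u, hc, hu, rfl⟩ := h
  obtain ⟨E, hE, hE0⟩ := isRootDiv_const_mul_pow (K := k) m hc hu
  have hcF : algebraMap k (modularFunctionFieldFullC k M') c ≠ 0 := fun h0 =>
    hc (by simpa using h0)
  refine ⟨algebraMap k (modularFunctionFieldFullC k M') c * u ^ m, E, ?_,
    mul_ne_zero hcF (pow_ne_zero _ hu), hE, hE0⟩
  show ((algebraMap k (modularFunctionFieldFullC k M') c : modularFunctionFieldFullC k M') :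
      LaurentSeries k) * (u : LaurentSeries k) ^ m = _
  rw [coe_const_h296]

/-- The class is `0` iff the series is a constant times an `m`-th power. -/
theorem IsRootClass.eq_zero_iff [HasPrincipalDivisors k (modularFunctionFieldFullC k M')]
    (hm : m ≠ 0)
    (hconst : ∀ u : modularFunctionFieldFullC k M', u ≠ 0 →
      (∀ v : Place k (modularFunctionFieldFullC k M'), v.ord u = 0) →
      ∃ c : k, u = algebraMap k (modularFunctionFieldFullC k M') c)
    {r : LaurentSeries k} {y : JZeroC k M'} (h : IsRootClass m M' r y) :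
    y = 0 ↔ PPowSeries m M' r := by
  constructor
  · rintro rfl
    exact h.pPow hconst
  · intro hP
    exact h.unique hm (isRootClass_zero_of_pPow hP)

/-- Change of modulus: the class of `r` for `m` is the class of `r ^ d` for `m · d`. -/
theorem IsRootClass.pow_modulus {r : LaurentSeries k} {y : JZeroC k M'}
    (h : IsRootClass m M' r y) (d : ℕ) (hd : d ≠ 0) : IsRootClass (m * d) M' (r ^ d) y := by
  obtain ⟨a, E, rfl, ha0, hE, rfl⟩ := h
  refine ⟨a ^ d, E, rfl, pow_ne_zero _ ha0, fun Q => ?_, rfl⟩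
  rw [ord_pow_h296, hE Q]
  push_cast
  ring

end Series

end Fermat.Agent.S59.LoSqC.H296

end
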